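import Fermat.Agent.S18.CORE9120.Calc

/-!
# S18 / CORE (helper9120): local parameter, local lemma, and the abstract core theorem
-/

set_option autoImplicit false

noncomputable section

namespace Fermat.Agent.S18.CORE9120

open AlgebraicCurve

variable {L Fb k Ft 𝒜 : Type*} [Field L] [Field Fb] [Algebra L Fb] [Field k] [Field Ft]
  [Algebra k Ft] [CommRing 𝒜]

theorem sum_single_one_apply {γ : Type*} {g : ℕ} (φ : Fin g → γ) (hφ : Function.Injective φ)
    (x : γ) [Decidable (x ∈ Set.range φ)] :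
    (∑ i, Finsupp.single (φ i) (1 : ℤ)) x = if x ∈ Set.range φ then 1 else 0 := by
  classical
  rw [Finsupp.finsetSum_apply]
  split_ifs with h
  · obtain ⟨i, rfl⟩ := h
    rw [Finset.sum_eq_single i]
    · simp
    · intro j _ hji
      rw [Finsupp.single_apply, if_neg]
      exact fun h => hji (hφ h)
    · simp
  · apply Finset.sum_eq_zero
    intro j _
    rw [Finsupp.single_apply, if_neg]
    exact fun hj => h ⟨j, hj⟩

namespace Setup

variable {A : ValuationSubring L} {res : A →+* k} {gen : 𝒜 →+* Fb} {red : 𝒜 →+* Ft}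
  {cst : A →+* 𝒜} {r : Place L Fb → Place k Ft}

variable (S : Setup A res gen red cst r)

include S

/-- (T5) local parameter: for `P` in the class of `Q` there is `a ∈ m_A` such that `τ - a`
has a simple zero at `P` and no other zero or pole in the class of `Q`. -/
theorem exists_param (Q : Place k Ft) (τ : 𝒜) (hτ1 : Q.ord (red τ) = 1)
    (hτ2 : ∀ P, r P = Q → 0 ≤ P.ord (gen τ)) (P : Place L Fb) (hP : r P = Q) :
    ∃ a : A, res a = 0 ∧ P.ord (gen (τ - cst a)) = 1 ∧
      ∀ P', r P' = Q → P' ≠ P → P'.ord (gen (τ - cst a)) = 0 := by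
  have hred : red τ ≠ 0 := by
    intro h
    rw [h, Place.ord_zero] at hτ1
    exact zero_ne_one hτ1
  have ht0 : gen τ ≠ 0 := S.gen_ne_zero hred
  have hcs : S.cs Q (gen τ) = 1 := by rw [S.cs_gen Q hred, hτ1]
  have hmemP : gen τ ∈ P.toValuationSubring := mem_of_ord_nonneg P (hτ2 P hP)
  obtain ⟨c, hc⟩ := exists_const_of_deg_one P (S.hdeg P) hmemP
  have hnc : gen τ ≠ algebraMap L Fb c := by
    intro h
    rcases eq_or_ne c 0 with rfl | hc0
    · rw [map_zero] at h; exact ht0 h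
    · rw [h, S.cs_const Q hc0] at hcs; exact zero_ne_one hcs
  have hord : 1 ≤ P.ord (gen τ - algebraMap L Fb c) := hc.resolve_left hnc
  have hne : gen τ - algebraMap L Fb c ≠ 0 := sub_ne_zero.mpr hnc
  have hnn : ∀ P', r P' = Q → 0 ≤ P'.ord (gen τ - algebraMap L Fb c) := fun P' hP' =>
    ord_nonneg_of_mem P' (sub_mem (mem_of_ord_nonneg P' (hτ2 P' hP')) (algebraMap_mem P' c))
  have hge : 1 ≤ S.cs Q (gen τ - algebraMap L Fb c) :=
    le_trans hord (S.ord_le_cs Q hne hnn P hP)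
  rcases eq_or_ne c 0 with rfl | hc0
  · refine ⟨0, map_zero _, ?_⟩
    rw [map_zero, sub_zero] at hord
    rw [map_zero, sub_zero]
    exact S.cs_single Q ht0 hτ2 hcs P hP hord
  rcases S.trichotomy hc0 with ⟨a, ha, ha0⟩ | ⟨a, ha, ha0⟩ | ⟨a, ha, ha0⟩
  · have hgen : gen (τ - cst a) = gen τ - algebraMap L Fb c := by rw [map_sub, S.gen_cst, ha]
    have hredeq : red (τ - cst a) = red τ := by
      rw [map_sub, S.red_cst, ha0, map_zero, sub_zero]
    have hcs1 : S.cs Q (gen (τ - cst a)) = 1 := by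
      rw [S.cs_gen Q (by rw [hredeq]; exact hred), hredeq, hτ1]
    refine ⟨a, ha0, ?_⟩
    rw [hgen] at hcs1 ⊢
    exact S.cs_single Q hne hnn hcs1 P hP hord
  · exfalso
    have hgen : algebraMap L Fb c * gen (cst a * τ - 1) = gen τ - algebraMap L Fb c := by
      rw [map_sub, map_mul, S.gen_cst, ha, map_one, mul_sub, ← mul_assoc, ← map_mul,
        mul_inv_cancel₀ hc0, map_one, one_mul, mul_one]
    have hredeq : red (cst a * τ - 1) = -1 := by
      rw [map_sub, map_mul, S.red_cst, ha0, map_zero, zero_mul, map_one, zero_sub]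
    have hr0 : red (cst a * τ - 1) ≠ 0 := by
      rw [hredeq]; exact neg_ne_zero.mpr one_ne_zero
    have h1 : S.cs Q (gen (cst a * τ - 1)) = 0 := by
      rw [S.cs_gen Q hr0, hredeq, ord_neg, Place.ord_one]
    have h2 : S.cs Q (gen τ - algebraMap L Fb c) = 0 := by
      rw [← hgen, S.cs_const_mul Q hc0 (S.gen_ne_zero hr0), h1]
    omega
  · exfalso
    have hgen : gen (τ - cst a) = gen τ - algebraMap L Fb c := by rw [map_sub, S.gen_cst, ha]
    have hredeq : red (τ - cst a) = -(algebraMap k Ft (res a)) + red τ := by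
      rw [map_sub, S.red_cst]; ring
    have hcu : -(algebraMap k Ft (res a)) ≠ 0 := neg_ne_zero.mpr ((map_ne_zero _).mpr ha0)
    have hcord : Q.ord (-(algebraMap k Ft (res a))) = 0 := by
      rw [ord_neg, ord_algebraMap Q ha0]
    have := ord_add_eq_of_lt Q hcu (y := red τ) (Or.inr (by rw [hcord, hτ1]; norm_num))
    have hr0 : red (τ - cst a) ≠ 0 := by rw [hredeq]; exact this.1
    have h1 : S.cs Q (gen (τ - cst a)) = 0 := by
      rw [S.cs_gen Q hr0, hredeq, this.2, hcord]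
    rw [hgen] at h1
    omega

/-- the local lemma: a function with a zero of order `m` at `P`, a pole of order `m` at `P0`
and no other zero or pole in the class of `Q`: `f - 1` has class sum at least `-1`. -/
theorem local_lemma (Q : Place k Ft) (τ : 𝒜) (hτ1 : Q.ord (red τ) = 1)
    (hτ2 : ∀ P, r P = Q → 0 ≤ P.ord (gen τ)) (m : ℕ) (hm : (m : k) ≠ 0)
    (P P0 : Place L Fb) (hP : r P = Q) (hP0 : r P0 = Q) (hPP0 : P ≠ P0)
    (f : Fb) (hf1 : f ≠ 1) (hf0 : f ≠ 0)
    (hfP : P.ord f = m) (hfP0 : P0.ord f = -m)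
    (hfo : ∀ P', r P' = Q → P' ≠ P → P' ≠ P0 → P'.ord f = 0) :
    -1 ≤ S.cs Q (f - 1) := by
  obtain ⟨a, ha0, haP, haO⟩ := S.exists_param Q τ hτ1 hτ2 P hP
  obtain ⟨b, hb0, hbP, hbO⟩ := S.exists_param Q τ hτ1 hτ2 P0 hP0
  have hredτ : red τ ≠ 0 := by
    intro h
    rw [h, Place.ord_zero] at hτ1
    exact zero_ne_one hτ1
  set Ta : 𝒜 := τ - cst a with hTa
  set Tb : 𝒜 := τ - cst b with hTb
  have hrTa : red Ta = red τ := by rw [hTa, map_sub, S.red_cst, ha0, map_zero, sub_zero]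
  have hrTb : red Tb = red τ := by rw [hTb, map_sub, S.red_cst, hb0, map_zero, sub_zero]
  have hgTa0 : gen Ta ≠ 0 := S.gen_ne_zero (by rw [hrTa]; exact hredτ)
  have hgTb0 : gen Tb ≠ 0 := S.gen_ne_zero (by rw [hrTb]; exact hredτ)
  have hm0 : m ≠ 0 := by
    rintro rfl
    exact hm Nat.cast_zero
  have hTab : gen Ta ≠ gen Tb := by
    intro h
    have := hbO P hP hPP0
    rw [← h, haP] at this
    exact one_ne_zero this
  set u : Fb := f * gen Tb ^ m / gen Ta ^ m with hu
  have hnum0 : f * gen Tb ^ m ≠ 0 := mul_ne_zero hf0 (pow_ne_zero _ hgTb0)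
  have hden0 : gen Ta ^ m ≠ 0 := pow_ne_zero _ hgTa0
  have huord : ∀ P', r P' = Q → P'.ord u = 0 := by
    intro P' hP'
    rw [hu, ord_div P' hnum0 hden0, P'.ord_mul hf0 (pow_ne_zero _ hgTb0), ord_pow, ord_pow]
    by_cases h1 : P' = P
    · subst h1
      rw [hfP, haP, hbO P' hP' hPP0]; ring
    · by_cases h2 : P' = P0
      · subst h2
        rw [hfP0, hbP, haO P' hP' h1]; ring
      · rw [hfo P' hP' h1 h2, haO P' hP' h1, hbO P' hP' h2]; ring
  have hid : (f - 1) * gen Tb ^ m = (u - 1) * gen Ta ^ m + (gen Ta ^ m - gen Tb ^ m) := by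
    rw [hu]; field_simp; ring
  set Ssum : 𝒜 := ∑ i ∈ Finset.range m, Ta ^ i * Tb ^ (m - 1 - i) with hS
  have hgeom : Ssum * (Ta - Tb) = Ta ^ m - Tb ^ m := (Commute.all Ta Tb).geom_sum₂_mul m
  have hTaTb : Ta - Tb = cst (b - a) := by rw [hTa, hTb, map_sub]; ring
  have hredS : red Ssum = (m : Ft) * red τ ^ (m - 1) := by
    rw [hS, map_sum]
    have hterm : ∀ i ∈ Finset.range m, red (Ta ^ i * Tb ^ (m - 1 - i)) = red τ ^ (m - 1) := by
      intro i hi
      rw [map_mul, map_pow, map_pow, hrTa, hrTb, ← pow_add]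
      congr 1
      have := Finset.mem_range.mp hi
      omega
    rw [Finset.sum_congr rfl hterm, Finset.sum_const, Finset.card_range, nsmul_eq_mul]
  have hmFt : (m : Ft) ≠ 0 := by
    have h1 : (m : Ft) = algebraMap k Ft (m : k) := (map_natCast (algebraMap k Ft) m).symm
    rw [h1]; exact (map_ne_zero _).mpr hm
  have hordm : Q.ord (m : Ft) = 0 := by
    have h1 : (m : Ft) = algebraMap k Ft (m : k) := (map_natCast (algebraMap k Ft) m).symm
    rw [h1]; exact ord_algebraMap Q hm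
  have hredS0 : red Ssum ≠ 0 := by rw [hredS]; exact mul_ne_zero hmFt (pow_ne_zero _ hredτ)
  have hordS : Q.ord (red Ssum) = (m : ℤ) - 1 := by
    rw [hredS, Q.ord_mul hmFt (pow_ne_zero _ hredτ), ord_pow, hτ1, hordm]
    have : 1 ≤ m := Nat.one_le_iff_ne_zero.mpr hm0
    push_cast [Nat.cast_sub this]; ring
  have hbaL : ((b - a : A) : L) ≠ 0 := by
    intro h0
    apply hTab
    have : gen Ta - gen Tb = 0 := by rw [← map_sub, hTaTb, S.gen_cst, h0, map_zero]
    exact sub_eq_zero.mp this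
  have hY : gen Ta ^ m - gen Tb ^ m = algebraMap L Fb ((b - a : A) : L) * gen Ssum := by
    rw [← map_pow, ← map_pow, ← map_sub, ← hgeom, hTaTb, map_mul, S.gen_cst, mul_comm]
  have hcsY : S.cs Q (gen Ta ^ m - gen Tb ^ m) = (m : ℤ) - 1 := by
    rw [hY, S.cs_const_mul Q hbaL (S.gen_ne_zero hredS0), S.cs_gen Q hredS0, hordS]
  have hY0 : gen Ta ^ m - gen Tb ^ m ≠ 0 := by
    rw [hY]; exact mul_ne_zero ((map_ne_zero _).mpr hbaL) (S.gen_ne_zero hredS0)
  have hcsTb : S.cs Q (gen Tb ^ m) = m := by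
    rw [← map_pow, S.cs_gen Q (by rw [map_pow, hrTb]; exact pow_ne_zero _ hredτ), map_pow, hrTb,
      ord_pow, hτ1, mul_one]
  have hcsTa : S.cs Q (gen Ta ^ m) = m := by
    rw [← map_pow, S.cs_gen Q (by rw [map_pow, hrTa]; exact pow_ne_zero _ hredτ), map_pow, hrTa,
      ord_pow, hτ1, mul_one]
  have hf10 : f - 1 ≠ 0 := sub_ne_zero.mpr hf1
  have hL0 : (f - 1) * gen Tb ^ m ≠ 0 := mul_ne_zero hf10 (pow_ne_zero _ hgTb0)
  have hcsL : S.cs Q ((f - 1) * gen Tb ^ m) = S.cs Q (f - 1) + m := by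
    rw [S.cs_mul Q hf10 (pow_ne_zero _ hgTb0), hcsTb]
  by_cases hu1 : u = 1
  · rw [hu1, sub_self, zero_mul, zero_add] at hid
    rw [hid, hcsY] at hcsL
    omega
  · have hu10 : u - 1 ≠ 0 := sub_ne_zero.mpr hu1
    have hcsu : 0 ≤ S.cs Q (u - 1) := S.cs_nonneg Q hu10 (fun P' hP' =>
      ord_nonneg_of_mem P' (sub_mem (mem_of_ord_nonneg P' (by rw [huord P' hP'])) (one_mem _)))
    have hX0 : (u - 1) * gen Ta ^ m ≠ 0 := mul_ne_zero hu10 (pow_ne_zero _ hgTa0)
    have hcsX : S.cs Q ((u - 1) * gen Ta ^ m) = S.cs Q (u - 1) + m := by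
      rw [S.cs_mul Q hu10 (pow_ne_zero _ hgTa0), hcsTa]
    have hne : S.cs Q ((u - 1) * gen Ta ^ m) ≠ S.cs Q (gen Ta ^ m - gen Tb ^ m) := by
      rw [hcsX, hcsY]; omega
    have hsum0 : (u - 1) * gen Ta ^ m + (gen Ta ^ m - gen Tb ^ m) ≠ 0 := by
      rw [← hid]; exact hL0
    rcases S.cs_add Q hX0 hY0 hsum0 hne with h | h
    · rw [← hid, hcsL, hcsX] at h; omega
    · rw [← hid, hcsL, hcsY] at h; omega

/-- **abstract core theorem.** -/
theorem core_abs (g : ℕ)
    (hRiem : ∀ D : Divisor L Fb, Divisor.degree D = g →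
      ∃ f : Fb, f ≠ 0 ∧ ∀ P, 0 ≤ P.ord f + D P)
    (Q : Fin g → Place k Ft) (hQ : Function.Injective Q)
    (hns : ∀ f : Ft, f ≠ 0 →
      (∀ P, (P ∈ Set.range Q → -1 ≤ P.ord f) ∧ (P ∉ Set.range Q → 0 ≤ P.ord f)) →
      ∃ c : k, f = algebraMap k Ft c)
    (τ : Fin g → 𝒜)
    (hτ : ∀ i, (Q i).ord (red (τ i)) = 1 ∧ ∀ P, r P = Q i → 0 ≤ P.ord (gen (τ i)))
    (Pstar : Place L Fb) (hPstar : r Pstar ∉ Set.range Q)
    (m : ℕ) (hm : (m : k) ≠ 0)
    (D : Divisor L Fb) (hD : Divisor.degree D = 0)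
    (hmD : m • D ∈ Divisor.principal (K := L) (F := Fb))
    (hredD : Finsupp.mapDomain r D ∈ Divisor.principal (K := k) (F := Ft)) :
    D ∈ Divisor.principal (K := L) (F := Fb) := by
  classical
  -- Step 1: lifts of the `Q i`
  have hP0ex : ∀ i, ∃ P, r P = Q i := by
    intro i
    have hred : red (τ i) ≠ 0 := by
      intro h
      have := (hτ i).1
      rw [h, Place.ord_zero] at this
      exact zero_ne_one this
    have hcs : S.cs (Q i) (gen (τ i)) ≠ 0 := by
      rw [S.cs_gen _ hred, (hτ i).1]; exact one_ne_zero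
    obtain ⟨P, hP, -⟩ := S.exists_of_cs_ne_zero (Q i) (S.gen_ne_zero hred) hcs
    exact ⟨P, hP⟩
  choose P0 hP0 using hP0ex
  have hP0inj : Function.Injective P0 := fun i j h => hQ (by rw [← hP0 i, ← hP0 j, h])
  set E0 : Divisor L Fb := ∑ i, Finsupp.single (P0 i) 1 with hE0
  have hE0deg : Divisor.degree E0 = g := by
    rw [hE0, map_sum]
    simp [Divisor.degree_single, S.hdeg]
  have hE0map : Finsupp.mapDomain r E0 = ∑ i, Finsupp.single (Q i) (1 : ℤ) := by
    rw [hE0, Finsupp.mapDomain_finsetSum]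
    apply Finset.sum_congr rfl
    intro i _
    rw [Finsupp.mapDomain_single, hP0]
  have hEQ : ∀ Q' : Place k Ft, (∑ i, Finsupp.single (Q i) (1 : ℤ)) Q'
      = if Q' ∈ Set.range Q then 1 else 0 := fun Q' => sum_single_one_apply Q hQ Q'
  have hE0val : ∀ P, E0 P = if P ∈ Set.range P0 then 1 else 0 :=
    fun P => sum_single_one_apply P0 hP0inj P
  -- Step 2: Riemann
  obtain ⟨x, hx0, hxE⟩ := hRiem (E0 + D) (by rw [map_add, hE0deg, hD, add_zero])
  set E : Divisor L Fb := S.dv x + E0 + D with hE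
  have hEnn : ∀ P, 0 ≤ E P := by
    intro P
    rw [hE, Finsupp.add_apply, Finsupp.add_apply, S.dv_apply hx0]
    have := hxE P
    rw [Finsupp.add_apply] at this
    omega
  obtain ⟨xbar, hxbar0, hxbar⟩ := S.exists_red hx0
  obtain ⟨gbar, hgbar0, hgbar⟩ := hredD
  have hrE : ∀ Q' : Place k Ft, Finsupp.mapDomain r E Q'
      = Q'.ord (xbar * gbar) + (if Q' ∈ Set.range Q then 1 else 0) := by
    intro Q'
    rw [hE, Finsupp.mapDomain_add, Finsupp.mapDomain_add, Finsupp.add_apply, Finsupp.add_apply,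
      hE0map, hEQ, hgbar Q', Q'.ord_mul hxbar0 hgbar0, ← hxbar Q']
    unfold cs
    ring
  have hφ : ∀ Q' : Place k Ft, Q'.ord (xbar * gbar) = 0 := by
    have hφ0 : xbar * gbar ≠ 0 := mul_ne_zero hxbar0 hgbar0
    have key : ∀ Q' : Place k Ft, (Q' ∈ Set.range Q → -1 ≤ Q'.ord (xbar * gbar)) ∧
        (Q' ∉ Set.range Q → 0 ≤ Q'.ord (xbar * gbar)) := by
      intro Q'
      have h1 := md_nonneg r E Q' (fun P _ => hEnn P)
      constructor
      · intro hQ'
        rw [hrE Q', if_pos hQ'] at h1; omega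
      · intro hQ'
        rw [hrE Q', if_neg hQ'] at h1; omega
    obtain ⟨c, hc⟩ := hns (xbar * gbar) hφ0 key
    intro Q'
    rw [hc]
    apply ord_algebraMap
    rintro rfl
    rw [map_zero] at hc
    exact hφ0 hc
  have hrE' : ∀ Q' : Place k Ft, Finsupp.mapDomain r E Q' = if Q' ∈ Set.range Q then 1 else 0 := by
    intro Q'; rw [hrE, hφ, zero_add]
  have hPex : ∀ i, ∃ P, r P = Q i ∧ E P = 1 ∧ ∀ P', r P' = Q i → P' ≠ P → E P' = 0 := fun i =>
    md_unique r E (Q i) (fun P _ => hEnn P) (by rw [hrE', if_pos ⟨i, rfl⟩])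
  choose Pi hPi1 hPi2 hPi3 using hPex
  have hEout : ∀ P, r P ∉ Set.range Q → E P = 0 := by
    intro P hP
    have h1 := md_ge r E (r P) (fun P _ => hEnn P) P rfl
    rw [hrE', if_neg hP] at h1
    have := hEnn P
    omega
  have hE0cls : ∀ i P, r P = Q i → E0 P = if P = P0 i then 1 else 0 := by
    intro i P hP
    rw [hE0val]
    by_cases h : P = P0 i
    · rw [if_pos h, if_pos ⟨i, h.symm⟩]
    · rw [if_neg h, if_neg]
      rintro ⟨j, rfl⟩
      have hj : Q j = Q i := by rw [← hP0 j, hP]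
      exact h (by rw [hQ hj])
  have hE0out : ∀ P, r P ∉ Set.range Q → E0 P = 0 := by
    intro P hP
    rw [hE0val, if_neg]
    rintro ⟨j, rfl⟩
    exact hP ⟨j, (hP0 j).symm⟩
  -- Step 3: the function `f` with divisor `m (E - E0)`
  obtain ⟨d, hd0, hd⟩ := hmD
  set f : Fb := x ^ m * d with hf
  have hf0 : f ≠ 0 := mul_ne_zero (pow_ne_zero _ hx0) hd0
  have hford : ∀ P, P.ord f = m * (E P - E0 P) := by
    intro P
    rw [hf, P.ord_mul (pow_ne_zero _ hx0) hd0, ord_pow, ← hd P, hE, Finsupp.add_apply,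
      Finsupp.add_apply, S.dv_apply hx0, Finsupp.smul_apply, nsmul_eq_mul]
    ring
  by_cases hall : ∀ i, Pi i = P0 i
  · have hEE0 : ∀ P, E P = E0 P := by
      intro P
      by_cases hP : r P ∈ Set.range Q
      · obtain ⟨i, hi⟩ := hP
        rw [hE0cls i P hi.symm]
        by_cases h : P = P0 i
        · rw [if_pos h, h, ← hall i, hPi2 i]
        · rw [if_neg h]
          exact hPi3 i P hi.symm (by rw [hall i]; exact h)
      · rw [hEout P hP, hE0out P hP]
    refine ⟨x⁻¹, inv_ne_zero hx0, fun P => ?_⟩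
    have := hEE0 P
    rw [hE, Finsupp.add_apply, Finsupp.add_apply, S.dv_apply hx0] at this
    rw [P.ord_inv]
    omega
  · exfalso
    push Not at hall
    obtain ⟨i0, hi0⟩ := hall
    have hm0 : m ≠ 0 := by
      rintro rfl
      exact hm Nat.cast_zero
    have hfstar : Pstar.ord f = 0 := by
      rw [hford, hEout _ hPstar, hE0out _ hPstar]; ring
    have hfPi0 : (Pi i0).ord f = m := by
      rw [hford, hPi2 i0, hE0cls i0 (Pi i0) (hPi1 i0), if_neg hi0]; ring
    have hfmem : f ∈ Pstar.toValuationSubring := mem_of_ord_nonneg Pstar (by rw [hfstar])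
    obtain ⟨c0, hc0⟩ := exists_const_of_deg_one Pstar (S.hdeg Pstar) hfmem
    have hfc : f ≠ algebraMap L Fb c0 := by
      intro h
      rcases eq_or_ne c0 0 with rfl | hc
      · rw [map_zero] at h; exact hf0 h
      · have := ord_algebraMap (Pi i0) hc
        rw [← h, hfPi0] at this
        exact hm0 (by exact_mod_cast this)
    have hstar1 : 1 ≤ Pstar.ord (f - algebraMap L Fb c0) := hc0.resolve_left hfc
    have hc00 : c0 ≠ 0 := by
      rintro rfl
      rw [map_zero, sub_zero, hfstar] at hstar1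
      omega
    set f' : Fb := f / algebraMap L Fb c0 with hf'
    have hcF : algebraMap L Fb c0 ≠ 0 := (map_ne_zero _).mpr hc00
    have hf'0 : f' ≠ 0 := div_ne_zero hf0 hcF
    have hf'ord : ∀ P, P.ord f' = m * (E P - E0 P) := by
      intro P
      rw [hf', ord_div P hf0 hcF, ord_algebraMap P hc00, sub_zero, hford]
    have hf'1 : f' ≠ 1 := by
      intro h
      apply hfc
      rw [hf', div_eq_one_iff_eq hcF] at h
      exact h
    have hf'sub : f' - 1 = (f - algebraMap L Fb c0) / algebraMap L Fb c0 := by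
      rw [hf']; field_simp
    have hf'10 : f' - 1 ≠ 0 := sub_ne_zero.mpr hf'1
    have hstar2 : 1 ≤ Pstar.ord (f' - 1) := by
      rw [hf'sub, ord_div Pstar (sub_ne_zero.mpr hfc) hcF, ord_algebraMap Pstar hc00, sub_zero]
      exact hstar1
    -- Step 5
    obtain ⟨ebar, hebar0, hebar⟩ := S.exists_red hf'10
    have hnn : ∀ Q', (∀ P, r P = Q' → P.ord f' = 0) → ∀ P, r P = Q' → 0 ≤ P.ord (f' - 1) := by
      intro Q' h P hP
      exact ord_nonneg_of_mem P (sub_mem (mem_of_ord_nonneg P (by rw [h P hP])) (one_mem _))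
    have hout : ∀ Q', Q' ∉ Set.range Q → ∀ P, r P = Q' → P.ord f' = 0 := by
      intro Q' hQ' P hP
      rw [hf'ord, hEout P (by rw [hP]; exact hQ'), hE0out P (by rw [hP]; exact hQ')]; ring
    have key : ∀ Q' : Place k Ft, (Q' ∈ Set.range Q → -1 ≤ Q'.ord ebar) ∧
        (Q' ∉ Set.range Q → 0 ≤ Q'.ord ebar) := by
      intro Q'
      constructor
      · rintro ⟨i, rfl⟩
        rw [← hebar]
        by_cases hi : Pi i = P0 i
        · have h0 : ∀ P, r P = Q i → P.ord f' = 0 := by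
            intro P hP
            rw [hf'ord, hE0cls i P hP]
            by_cases h : P = P0 i
            · rw [if_pos h, h, ← hi, hPi2 i]; ring
            · rw [if_neg h, hPi3 i P hP (by rw [hi]; exact h)]; ring
          have := S.cs_nonneg (Q i) hf'10 (hnn _ h0)
          omega
        · apply S.local_lemma (Q i) (τ i) (hτ i).1 (hτ i).2 m hm (Pi i) (P0 i) (hPi1 i) (hP0 i) hi
            f' hf'1 hf'0
          · rw [hf'ord, hPi2 i, hE0cls i _ (hPi1 i), if_neg hi]; ring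
          · rw [hf'ord, hPi3 i (P0 i) (hP0 i) (Ne.symm hi), hE0cls i _ (hP0 i), if_pos rfl]; ring
          · intro P' hP' h1 h2
            rw [hf'ord, hPi3 i P' hP' h1, hE0cls i _ hP', if_neg h2]; ring
      · intro hQ'
        rw [← hebar]
        exact S.cs_nonneg Q' hf'10 (hnn _ (hout _ hQ'))
    obtain ⟨c, hc⟩ := hns ebar hebar0 key
    have hc0' : c ≠ 0 := by
      rintro rfl
      rw [map_zero] at hc
      exact hebar0 hc
    have h1 : (r Pstar).ord ebar = 0 := by rw [hc]; exact ord_algebraMap _ hc0'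
    have h2 : 1 ≤ S.cs (r Pstar) (f' - 1) :=
      le_trans hstar2 (S.ord_le_cs (r Pstar) hf'10 (hnn _ (hout _ hPstar)) Pstar rfl)
    rw [hebar, h1] at h2
    omega

end Setup

end Fermat.Agent.S18.CORE9120
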