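import Fermat.Agent.S18.Defs
import Fermat.Agent.S18.CORE9120.Main

/-!
# S18 / CORE (helper9120): instantiation of the abstract core theorem to `Adm A Fb Ft`
-/

set_option autoImplicit false

noncomputable section

namespace Fermat.Agent.S18.CORE9120

open ModularCurve AlgebraicCurve

variable {L : Type*} [Field L] (A : ValuationSubring L)
variable (Fb : IntermediateField L (LaurentSeries L))
variable (Ft : IntermediateField (IsLocalRing.ResidueField A)
  (LaurentSeries (IsLocalRing.ResidueField A)))

/-- generic fibre as a ring hom. -/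
def genHom : Adm A Fb Ft →+* Fb :=
  ((coeffMap A.subtype).comp (Adm A Fb Ft).subtype).codRestrict Fb (fun y => y.2.1)

/-- reduction as a ring hom. -/
def redHom : Adm A Fb Ft →+* Ft :=
  ((coeffMap (IsLocalRing.residue A)).comp (Adm A Fb Ft).subtype).codRestrict Ft
    (fun y => y.2.2)

theorem genHom_apply (y : Adm A Fb Ft) : genHom A Fb Ft y = genOf A Fb Ft y := rfl

theorem redHom_apply (y : Adm A Fb Ft) : redHom A Fb Ft y = redOf A Fb Ft y := rfl

theorem coeffMap_C_subtype (a : A) :
    coeffMap A.subtype (HahnSeries.C a : LaurentSeries A) = algebraMap L (LaurentSeries L) (a : L) := by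
  rw [HahnSeries.C_apply, coeffMap_single, algebraMap_laurentSeries_eq_single]
  rfl

theorem coeffMap_C_residue (a : A) :
    coeffMap (IsLocalRing.residue A) (HahnSeries.C a : LaurentSeries A)
      = algebraMap (IsLocalRing.ResidueField A) (LaurentSeries (IsLocalRing.ResidueField A))
        (IsLocalRing.residue A a) := by
  rw [HahnSeries.C_apply, coeffMap_single, algebraMap_laurentSeries_eq_single]

/-- constants as a ring hom. -/
def cstHom : A →+* Adm A Fb Ft :=
  (HahnSeries.C : A →+* LaurentSeries A).codRestrict (Adm A Fb Ft) (fun a => by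
    refine ⟨?_, ?_⟩
    · rw [coeffMap_C_subtype]; exact Fb.algebraMap_mem _
    · rw [coeffMap_C_residue]; exact Ft.algebraMap_mem _)

theorem coeffMap_subtype_injective :
    Function.Injective (coeffMap A.subtype : LaurentSeries A → LaurentSeries L) := by
  intro x y h
  ext n
  have := congrArg (fun z => z.coeff n) h
  simp only [coeffMap_coeff] at this
  exact congrArg Subtype.val (Subtype.ext this)

variable {A Fb Ft} in
theorem setup_of (r : Place L Fb → Place (IsLocalRing.ResidueField A) Ft)
    (hr : RedCompat A Fb Ft r)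
    (hdeg : ∀ P : Place L Fb, P.deg = 1)
    (hdiv : ∀ f : Fb, f ≠ 0 → ∃ D : Divisor L Fb, ∀ P, D P = P.ord f)
    (hGauss : ∀ f : Fb, f ≠ 0 → ∃ (c : L) (y₁ y₂ : Adm A Fb Ft), c ≠ 0 ∧
      redOf A Fb Ft y₁ ≠ 0 ∧ redOf A Fb Ft y₂ ≠ 0 ∧
      f * genOf A Fb Ft y₂ = algebraMap L Fb c * genOf A Fb Ft y₁) :
    Setup A (IsLocalRing.residue A) (genHom A Fb Ft) (redHom A Fb Ft) (cstHom A Fb Ft) r where
  res_unit := fun a ha => (IsLocalRing.residue_ne_zero_iff_isUnit a).mp ha
  gen_inj := by
    intro x y h
    have h1 : coeffMap A.subtype (x : LaurentSeries A) = coeffMap A.subtype (y : LaurentSeries A) :=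
      congrArg Subtype.val h
    exact Subtype.ext (coeffMap_subtype_injective A h1)
  gen_cst := fun a => Subtype.ext (coeffMap_C_subtype A a)
  red_cst := fun a => Subtype.ext (coeffMap_C_residue A a)
  hr := by
    intro y hy D hD Q
    have hne : coeffMap (IsLocalRing.residue A) (y : LaurentSeries A) ≠ 0 := by
      intro h0
      exact hy (Subtype.ext h0)
    exact hr (y : LaurentSeries A) y.2.1 y.2.2 hne D hD Q
  hdeg := hdeg
  hdiv := hdiv
  hGauss := hGauss

end Fermat.Agent.S18.CORE9120
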