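import Fermat.Agent.S18.CORE9120.PlaceLemmas

/-!
# S18 / CORE (helper9120): abstract setup and the "class sum" calculus

`Setup` abstracts the situation of `Fermat.Agent.S18.core`: a valuation ring `A` of `L` with
"residue map" `res : A →+* k`, a ring `𝒜` of "admissible series" with generic fibre
`gen : 𝒜 →+* Fb`, reduction `red : 𝒜 →+* Ft`, constants `cst : A →+* 𝒜`, and a place map `r`.
-/

set_option autoImplicit false

noncomputable section

namespace Fermat.Agent.S18.CORE9120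

open AlgebraicCurve

variable {L Fb k Ft 𝒜 : Type*} [Field L] [Field Fb] [Algebra L Fb] [Field k] [Field Ft]
  [Algebra k Ft] [CommRing 𝒜]

/-- the abstract data of the core theorem. -/
structure Setup (A : ValuationSubring L) (res : A →+* k) (gen : 𝒜 →+* Fb) (red : 𝒜 →+* Ft)
    (cst : A →+* 𝒜) (r : Place L Fb → Place k Ft) : Prop where
  res_unit : ∀ a : A, res a ≠ 0 → IsUnit a
  gen_inj : Function.Injective gen
  gen_cst : ∀ a : A, gen (cst a) = algebraMap L Fb (a : L)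
  red_cst : ∀ a : A, red (cst a) = algebraMap k Ft (res a)
  hr : ∀ y : 𝒜, red y ≠ 0 → ∀ D : Divisor L Fb, (∀ P, D P = P.ord (gen y)) →
    ∀ Q, Finsupp.mapDomain r D Q = Q.ord (red y)
  hdeg : ∀ P : Place L Fb, P.deg = 1
  hdiv : ∀ f : Fb, f ≠ 0 → ∃ D : Divisor L Fb, ∀ P, D P = P.ord f
  hGauss : ∀ f : Fb, f ≠ 0 → ∃ (c : L) (y₁ y₂ : 𝒜), c ≠ 0 ∧ red y₁ ≠ 0 ∧ red y₂ ≠ 0 ∧
    f * gen y₂ = algebraMap L Fb c * gen y₁

namespace Setup

variable {A : ValuationSubring L} {res : A →+* k} {gen : 𝒜 →+* Fb} {red : 𝒜 →+* Ft}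
  {cst : A →+* 𝒜} {r : Place L Fb → Place k Ft}

variable (S : Setup A res gen red cst r)

include S

/-- trichotomy for a nonzero constant. -/
theorem trichotomy {c : L} (hc : c ≠ 0) :
    (∃ a : A, (a : L) = c ∧ res a = 0) ∨ (∃ a : A, (a : L) = c⁻¹ ∧ res a = 0) ∨
      (∃ a : A, (a : L) = c ∧ res a ≠ 0) := by
  rcases A.mem_or_inv_mem c with h | h
  · by_cases h0 : res ⟨c, h⟩ = 0
    · exact Or.inl ⟨⟨c, h⟩, rfl, h0⟩
    · exact Or.inr (Or.inr ⟨⟨c, h⟩, rfl, h0⟩)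
  · by_cases h0 : res ⟨c⁻¹, h⟩ = 0
    · exact Or.inr (Or.inl ⟨⟨c⁻¹, h⟩, rfl, h0⟩)
    · have hu := S.res_unit _ h0
      obtain ⟨b, hb⟩ := hu.exists_right_inv
      have hb' : c⁻¹ * (b : L) = 1 := congrArg Subtype.val hb
      have hbc : (b : L) = c := by
        field_simp at hb'
        exact hb'
      by_cases h1 : res b = 0
      · exact Or.inl ⟨b, hbc, h1⟩
      · exact Or.inr (Or.inr ⟨b, hbc, h1⟩)

theorem gen_ne_zero {y : 𝒜} (hy : red y ≠ 0) : gen y ≠ 0 := by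
  intro h
  have : y = 0 := S.gen_inj (by rw [h, map_zero])
  rw [this, map_zero] at hy
  exact hy rfl

open Classical in
/-- the divisor of a function (zero for the zero function). -/
def dv (f : Fb) : Divisor L Fb :=
  if h : f ≠ 0 then (S.hdiv f h).choose else 0

theorem dv_apply {f : Fb} (hf : f ≠ 0) (P : Place L Fb) : S.dv f P = P.ord f := by
  rw [dv, dif_pos hf]
  exact (S.hdiv f hf).choose_spec P

theorem dv_mul {f g : Fb} (hf : f ≠ 0) (hg : g ≠ 0) : S.dv (f * g) = S.dv f + S.dv g := by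
  ext P
  rw [Finsupp.add_apply, S.dv_apply (mul_ne_zero hf hg), S.dv_apply hf, S.dv_apply hg,
    P.ord_mul hf hg]

theorem dv_inv {f : Fb} (hf : f ≠ 0) : S.dv f⁻¹ = - S.dv f := by
  ext P
  rw [Finsupp.neg_apply, S.dv_apply (inv_ne_zero hf), S.dv_apply hf, P.ord_inv]

theorem dv_const {c : L} (hc : c ≠ 0) : S.dv (algebraMap L Fb c) = 0 := by
  ext P
  rw [S.dv_apply ((map_ne_zero _).mpr hc), Finsupp.zero_apply, ord_algebraMap P hc]

/-- the class sum: sum of the orders of `f` over the places reducing to `Q`. -/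
def cs (Q : Place k Ft) (f : Fb) : ℤ := Finsupp.mapDomain r (S.dv f) Q

theorem cs_mul (Q : Place k Ft) {f g : Fb} (hf : f ≠ 0) (hg : g ≠ 0) :
    S.cs Q (f * g) = S.cs Q f + S.cs Q g := by
  rw [cs, cs, cs, S.dv_mul hf hg, Finsupp.mapDomain_add, Finsupp.add_apply]

theorem cs_inv (Q : Place k Ft) {f : Fb} (hf : f ≠ 0) : S.cs Q f⁻¹ = - S.cs Q f := by
  rw [cs, cs, S.dv_inv hf]
  rw [← Finsupp.mapDomain.addMonoidHom_apply, map_neg, Finsupp.mapDomain.addMonoidHom_apply,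
    Finsupp.neg_apply]

theorem cs_div (Q : Place k Ft) {f g : Fb} (hf : f ≠ 0) (hg : g ≠ 0) :
    S.cs Q (f / g) = S.cs Q f - S.cs Q g := by
  rw [div_eq_mul_inv, S.cs_mul Q hf (inv_ne_zero hg), S.cs_inv Q hg]
  ring

theorem cs_const (Q : Place k Ft) {c : L} (hc : c ≠ 0) : S.cs Q (algebraMap L Fb c) = 0 := by
  rw [cs, S.dv_const hc, Finsupp.mapDomain_zero, Finsupp.zero_apply]

theorem cs_const_mul (Q : Place k Ft) {c : L} (hc : c ≠ 0) {f : Fb} (hf : f ≠ 0) :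
    S.cs Q (algebraMap L Fb c * f) = S.cs Q f := by
  rw [S.cs_mul Q ((map_ne_zero _).mpr hc) hf, S.cs_const Q hc, zero_add]

theorem cs_gen (Q : Place k Ft) {y : 𝒜} (hy : red y ≠ 0) : S.cs Q (gen y) = Q.ord (red y) :=
  S.hr y hy (S.dv (gen y)) (fun P => S.dv_apply (S.gen_ne_zero hy) P) Q

theorem cs_neg (Q : Place k Ft) {f : Fb} (hf : f ≠ 0) : S.cs Q (-f) = S.cs Q f := by
  have h1 : -f = algebraMap L Fb (-1) * f := by rw [map_neg, map_one]; ring
  rw [h1, S.cs_const_mul Q (by norm_num) hf]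

theorem cs_nonneg (Q : Place k Ft) {f : Fb} (hf : f ≠ 0) (h : ∀ P, r P = Q → 0 ≤ P.ord f) :
    0 ≤ S.cs Q f :=
  md_nonneg r _ Q (fun P hP => by rw [S.dv_apply hf]; exact h P hP)

theorem ord_le_cs (Q : Place k Ft) {f : Fb} (hf : f ≠ 0) (h : ∀ P, r P = Q → 0 ≤ P.ord f)
    (P : Place L Fb) (hP : r P = Q) : P.ord f ≤ S.cs Q f := by
  have := md_ge r (S.dv f) Q (fun P hP => by rw [S.dv_apply hf]; exact h P hP) P hP
  rwa [S.dv_apply hf] at this

theorem cs_eq_zero (Q : Place k Ft) {f : Fb} (hf : f ≠ 0) (h : ∀ P, r P = Q → P.ord f = 0) :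
    S.cs Q f = 0 :=
  md_eq_zero r _ Q (fun P hP => by rw [S.dv_apply hf]; exact h P hP)

theorem exists_of_cs_ne_zero (Q : Place k Ft) {f : Fb} (hf : f ≠ 0) (h : S.cs Q f ≠ 0) :
    ∃ P, r P = Q ∧ P.ord f ≠ 0 := by
  obtain ⟨P, hP, hne⟩ := md_exists r (S.dv f) Q h
  exact ⟨P, hP, by rwa [S.dv_apply hf] at hne⟩

theorem cs_single (Q : Place k Ft) {f : Fb} (hf : f ≠ 0) (h : ∀ P, r P = Q → 0 ≤ P.ord f)
    (h1 : S.cs Q f = 1) (P : Place L Fb) (hP : r P = Q) (hpos : 1 ≤ P.ord f) :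
    P.ord f = 1 ∧ ∀ P', r P' = Q → P' ≠ P → P'.ord f = 0 := by
  have := md_single r (S.dv f) Q (fun P hP => by rw [S.dv_apply hf]; exact h P hP) h1 P hP
    (by rw [S.dv_apply hf]; exact hpos)
  rw [S.dv_apply hf] at this
  refine ⟨this.1, fun P' hP' hne => ?_⟩
  have h2 := this.2 P' hP' hne
  rwa [S.dv_apply hf] at h2

/-- Gauss form, in terms of class sums: every nonzero function has a "reduction". -/
theorem exists_red {f : Fb} (hf : f ≠ 0) :
    ∃ φ : Ft, φ ≠ 0 ∧ ∀ Q, S.cs Q f = Q.ord φ := by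
  obtain ⟨c, y₁, y₂, hc, h1, h2, heq⟩ := S.hGauss f hf
  refine ⟨red y₁ / red y₂, div_ne_zero h1 h2, fun Q => ?_⟩
  have hg1 := S.gen_ne_zero h1
  have hg2 := S.gen_ne_zero h2
  have hf' : f = algebraMap L Fb c * gen y₁ / gen y₂ := by
    rw [eq_div_iff hg2]; exact heq
  rw [hf', S.cs_div Q (mul_ne_zero ((map_ne_zero _).mpr hc) hg1) hg2, S.cs_const_mul Q hc hg1,
    S.cs_gen Q h1, S.cs_gen Q h2, ord_div Q h1 h2]

/-- two-term lemma: `gen y₁ + ν * gen y₂`. -/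
theorem cs_add_aux (Q : Place k Ft) {y₁ y₂ : 𝒜} (h1 : red y₁ ≠ 0) (h2 : red y₂ ≠ 0) {ν : L}
    (hν : ν ≠ 0)
    (hne : Q.ord (red y₁) ≠ Q.ord (red y₂)) :
    S.cs Q (gen y₁ + algebraMap L Fb ν * gen y₂) = Q.ord (red y₁) ∨
      S.cs Q (gen y₁ + algebraMap L Fb ν * gen y₂) = Q.ord (red y₂) := by
  rcases S.trichotomy hν with ⟨a, ha, ha0⟩ | ⟨a, ha, ha0⟩ | ⟨a, ha, ha0⟩
  · -- ν ∈ m_A
    left
    have hy : gen (y₁ + cst a * y₂) = gen y₁ + algebraMap L Fb ν * gen y₂ := by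
      rw [map_add, map_mul, S.gen_cst, ha]
    have hr : red (y₁ + cst a * y₂) = red y₁ := by
      rw [map_add, map_mul, S.red_cst, ha0, map_zero, zero_mul, add_zero]
    rw [← hy, S.cs_gen Q (by rw [hr]; exact h1), hr]
  · -- ν⁻¹ ∈ m_A
    right
    have hy : algebraMap L Fb ν * gen (cst a * y₁ + y₂)
        = gen y₁ + algebraMap L Fb ν * gen y₂ := by
      rw [map_add, map_mul, S.gen_cst, ha, mul_add, ← mul_assoc, ← map_mul, mul_inv_cancel₀ hν,
        map_one, one_mul]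
    have hr : red (cst a * y₁ + y₂) = red y₂ := by
      rw [map_add, map_mul, S.red_cst, ha0, map_zero, zero_mul, zero_add]
    have hne0 : gen (cst a * y₁ + y₂) ≠ 0 := S.gen_ne_zero (by rw [hr]; exact h2)
    rw [← hy, S.cs_const_mul Q hν hne0, S.cs_gen Q (by rw [hr]; exact h2), hr]
  · -- ν a unit
    have hy : gen (y₁ + cst a * y₂) = gen y₁ + algebraMap L Fb ν * gen y₂ := by
      rw [map_add, map_mul, S.gen_cst, ha]
    have hr : red (y₁ + cst a * y₂) = red y₁ + algebraMap k Ft (res a) * red y₂ := by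
      rw [map_add, map_mul, S.red_cst]
    have hz : algebraMap k Ft (res a) * red y₂ ≠ 0 := mul_ne_zero ((map_ne_zero _).mpr ha0) h2
    have hzord : Q.ord (algebraMap k Ft (res a) * red y₂) = Q.ord (red y₂) := by
      rw [Q.ord_mul ((map_ne_zero _).mpr ha0) h2, ord_algebraMap Q ha0, zero_add]
    rcases lt_or_gt_of_ne hne with hlt | hgt
    · left
      have := ord_add_eq_of_lt Q h1 (Or.inr (by rw [hzord]; exact hlt))
      rw [← hy, S.cs_gen Q (by rw [hr]; exact this.1), hr, this.2]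
    · right
      have := ord_add_eq_of_lt Q hz (y := red y₁) (Or.inr (by rw [hzord]; exact hgt))
      rw [add_comm] at this
      rw [← hy, S.cs_gen Q (by rw [hr]; exact this.1), hr, this.2, hzord]

/-- **sum lemma**: if the class sums of `X` and `Y` differ, the class sum of `X + Y` is one
of the two. -/
theorem cs_add (Q : Place k Ft) {X Y : Fb} (hX : X ≠ 0) (hY : Y ≠ 0) (hXY : X + Y ≠ 0)
    (hne : S.cs Q X ≠ S.cs Q Y) :
    S.cs Q (X + Y) = S.cs Q X ∨ S.cs Q (X + Y) = S.cs Q Y := by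
  obtain ⟨c, y₁, y₂, hc, h1, h2, heq⟩ := S.hGauss X hX
  obtain ⟨d, z₁, z₂, hd, h3, h4, heq'⟩ := S.hGauss Y hY
  have hg1 := S.gen_ne_zero h1
  have hg2 := S.gen_ne_zero h2
  have hg3 := S.gen_ne_zero h3
  have hg4 := S.gen_ne_zero h4
  have hcF : algebraMap L Fb c ≠ 0 := (map_ne_zero _).mpr hc
  have hdF : algebraMap L Fb d ≠ 0 := (map_ne_zero _).mpr hd
  have hXe : X = algebraMap L Fb c * gen y₁ / gen y₂ := by
    rw [eq_div_iff hg2]; exact heq
  have hYe : Y = algebraMap L Fb d * gen z₁ / gen z₂ := by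
    rw [eq_div_iff hg4]; exact heq'
  have hcsX : S.cs Q X = Q.ord (red y₁) - Q.ord (red y₂) := by
    rw [hXe, S.cs_div Q (mul_ne_zero hcF hg1) hg2, S.cs_const_mul Q hc hg1, S.cs_gen Q h1,
      S.cs_gen Q h2]
  have hcsY : S.cs Q Y = Q.ord (red z₁) - Q.ord (red z₂) := by
    rw [hYe, S.cs_div Q (mul_ne_zero hdF hg3) hg4, S.cs_const_mul Q hd hg3, S.cs_gen Q h3,
      S.cs_gen Q h4]
  -- common denominator
  set ν : L := d / c with hν
  have hν0 : ν ≠ 0 := div_ne_zero hd hc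
  have hr1 : red (y₁ * z₂) ≠ 0 := by rw [map_mul]; exact mul_ne_zero h1 h4
  have hr2 : red (z₁ * y₂) ≠ 0 := by rw [map_mul]; exact mul_ne_zero h3 h2
  have hr3 : red (y₂ * z₂) ≠ 0 := by rw [map_mul]; exact mul_ne_zero h2 h4
  have hsumeq : X + Y = algebraMap L Fb c * (gen (y₁ * z₂) + algebraMap L Fb ν * gen (z₁ * y₂))
      / gen (y₂ * z₂) := by
    rw [hXe, hYe, hν, map_div₀, map_mul, map_mul, map_mul]
    field_simp
  have hnum : gen (y₁ * z₂) + algebraMap L Fb ν * gen (z₁ * y₂) ≠ 0 := by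
    intro h0
    rw [h0, mul_zero, zero_div] at hsumeq
    exact hXY hsumeq
  have ho1 : Q.ord (red (y₁ * z₂)) = Q.ord (red y₁) + Q.ord (red z₂) := by
    rw [map_mul, Q.ord_mul h1 h4]
  have ho2 : Q.ord (red (z₁ * y₂)) = Q.ord (red z₁) + Q.ord (red y₂) := by
    rw [map_mul, Q.ord_mul h3 h2]
  have ho3 : Q.ord (red (y₂ * z₂)) = Q.ord (red y₂) + Q.ord (red z₂) := by
    rw [map_mul, Q.ord_mul h2 h4]
  have hne' : Q.ord (red (y₁ * z₂)) ≠ Q.ord (red (z₁ * y₂)) := by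
    rw [ho1, ho2]
    intro h
    apply hne
    rw [hcsX, hcsY]
    omega
  have key := S.cs_add_aux Q hr1 hr2 hν0 hne'
  have hcs : S.cs Q (X + Y) = S.cs Q (gen (y₁ * z₂) + algebraMap L Fb ν * gen (z₁ * y₂))
      - Q.ord (red (y₂ * z₂)) := by
    rw [hsumeq, S.cs_div Q (mul_ne_zero hcF hnum) (S.gen_ne_zero hr3), S.cs_const_mul Q hc hnum,
      S.cs_gen Q hr3]
  rcases key with h | h
  · left
    rw [hcs, h, hcsX, ho1, ho3]; ring
  · right
    rw [hcs, h, hcsY, ho2, ho3]; ring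

end Setup

end Fermat.Agent.S18.CORE9120
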