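import Mathlib
import Fermat.Prelude.Def_AlgebraicCurve_DivisorClassGroup

/-!
# S18 / CORE (helper9120): generic lemmas on `AlgebraicCurve.Place` and on `Finsupp.mapDomain`
-/

set_option autoImplicit false

noncomputable section

namespace Fermat.Agent.S18.CORE9120

open AlgebraicCurve

section PlaceGeneric

variable {K F : Type*} [Field K] [Field F] [Algebra K F] (P : Place K F)

/-- order of a nonzero element of the valuation ring: a natural number, zero iff unit. -/
theorem ord_coe_eq (a : P.toValuationSubring) (ha : a ≠ 0) :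
    ∃ n : ℕ, P.ord (a : F) = n ∧ (n = 0 ↔ IsUnit a) := by
  obtain ⟨π, hπ⟩ := IsDiscreteValuationRing.exists_irreducible P.toValuationSubring
  obtain ⟨n, u, hu⟩ := IsDiscreteValuationRing.eq_unit_mul_pow_irreducible ha hπ
  refine ⟨n, ?_, ?_⟩
  · have h1 : (a : F) = ((u : P.toValuationSubring) : F) * ((π : F) ^ (n : ℤ)) := by
      rw [hu, zpow_natCast]
      rfl
    rw [h1]
    exact P.ord_unit_smul_zpow u hπ n
  · constructor
    · rintro rfl
      rw [hu, pow_zero, mul_one]
      exact u.isUnit
    · intro hunit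
      by_contra hn
      have h2 : IsUnit (π ^ n) := by
        have h3 : π ^ n = ((u⁻¹ : P.toValuationSubringˣ) : P.toValuationSubring) * a := by
          rw [hu, ← mul_assoc, Units.inv_mul, one_mul]
        rw [h3]
        exact (Units.isUnit _).mul hunit
      exact hπ.not_isUnit ((isUnit_pow_iff hn).mp h2)

theorem ord_nonneg_of_mem {f : F} (hmem : f ∈ P.toValuationSubring) : 0 ≤ P.ord f := by
  rcases eq_or_ne f 0 with rfl | hf
  · simp
  have ha : (⟨f, hmem⟩ : P.toValuationSubring) ≠ 0 := by
    intro h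
    exact hf (congrArg Subtype.val h)
  obtain ⟨n, hn, -⟩ := ord_coe_eq P ⟨f, hmem⟩ ha
  have : P.ord f = n := hn
  omega

theorem mem_of_ord_nonneg {f : F} (h : 0 ≤ P.ord f) : f ∈ P.toValuationSubring := by
  rcases eq_or_ne f 0 with rfl | hf
  · exact zero_mem _
  obtain ⟨π, hπ⟩ := IsDiscreteValuationRing.exists_irreducible P.toValuationSubring
  obtain ⟨u, hu⟩ := P.exists_unit_mul_zpow hf hπ
  obtain ⟨n, hn⟩ := Int.eq_ofNat_of_zero_le h
  rw [hu, hn, zpow_natCast]
  exact mul_mem (u : P.toValuationSubring).2 (pow_mem π.2 n)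

theorem ord_eq_zero_iff_isUnit (a : P.toValuationSubring) (ha : a ≠ 0) :
    P.ord (a : F) = 0 ↔ IsUnit a := by
  obtain ⟨n, hn, hu⟩ := ord_coe_eq P a ha
  rw [hn, ← hu]
  exact Int.natCast_eq_zero

theorem ord_pos_of_not_isUnit (a : P.toValuationSubring) (ha : a ≠ 0) (hu : ¬ IsUnit a) :
    1 ≤ P.ord (a : F) := by
  obtain ⟨n, hn, hun⟩ := ord_coe_eq P a ha
  rw [hn]
  have : n ≠ 0 := fun h => hu (hun.mp h)
  omega

theorem ord_algebraMap {c : K} (hc : c ≠ 0) : P.ord (algebraMap K F c) = 0 := by
  have hu : IsUnit (algebraMap K P.toValuationSubring c) := (IsUnit.mk0 c hc).map _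
  have := P.ord_coe_unit hu.unit
  rwa [IsUnit.unit_spec, P.coe_algebraMap] at this

theorem algebraMap_mem (c : K) : algebraMap K F c ∈ P.toValuationSubring := P.algebraMap_mem' c

theorem ord_pow (f : F) (n : ℕ) : P.ord (f ^ n) = n * P.ord f := by
  have := P.ord_zpow f n
  rwa [zpow_natCast] at this

theorem ord_neg (f : F) : P.ord (-f) = P.ord f := by
  simp [Place.ord]

theorem ord_div {f g : F} (hf : f ≠ 0) (hg : g ≠ 0) : P.ord (f / g) = P.ord f - P.ord g := by
  rw [div_eq_mul_inv, P.ord_mul hf (inv_ne_zero hg), P.ord_inv]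
  ring

/-- `ord (x + y) = ord x` when `ord x < ord y` (or `y = 0`). -/
theorem ord_add_eq_of_lt {x y : F} (hx : x ≠ 0) (h : y = 0 ∨ P.ord x < P.ord y) :
    x + y ≠ 0 ∧ P.ord (x + y) = P.ord x := by
  rcases eq_or_ne y 0 with rfl | hy
  · simp [hx]
  have hlt : P.ord x < P.ord y := h.resolve_left hy
  have hz : y / x ≠ 0 := div_ne_zero hy hx
  have hzord : 1 ≤ P.ord (y / x) := by
    rw [ord_div P hy hx]; omega
  have hzmem : y / x ∈ P.toValuationSubring := mem_of_ord_nonneg P (by omega)
  set a : P.toValuationSubring := ⟨y / x, hzmem⟩ with ha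
  have ha0 : a ≠ 0 := fun h0 => hz (congrArg Subtype.val h0)
  have hanu : ¬ IsUnit a := by
    intro hu
    have := (ord_eq_zero_iff_isUnit P a ha0).mpr hu
    have h2 : P.ord (y / x) = 0 := this
    omega
  have hunit : IsUnit (1 + a) := by
    have h1 : IsUnit ((1 + a) + (-a)) := by simp
    rcases IsLocalRing.isUnit_or_isUnit_of_isUnit_add h1 with h2 | h2
    · exact h2
    · exact absurd (by simpa using h2) hanu
  have hord1 : P.ord (((1 + a : P.toValuationSubring)) : F) = 0 := by
    have := P.ord_coe_unit hunit.unit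
    rwa [IsUnit.unit_spec] at this
  have hne1 : ((1 + a : P.toValuationSubring) : F) ≠ 0 := by
    intro h0
    have : (1 + a : P.toValuationSubring) = 0 := Subtype.ext h0
    rw [this] at hunit
    exact not_isUnit_zero hunit
  have hcoe : ((1 + a : P.toValuationSubring) : F) = 1 + y / x := rfl
  have hxy : x + y = x * (1 + y / x) := by field_simp
  rw [hcoe] at hord1 hne1
  refine ⟨?_, ?_⟩
  · rw [hxy]; exact mul_ne_zero hx hne1
  · rw [hxy, P.ord_mul hx hne1, hord1, add_zero]

/-- ultrametric inequality for `ord`. -/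
theorem le_ord_add {x y : F} {n : ℤ} (hx : x = 0 ∨ n ≤ P.ord x) (hy : y = 0 ∨ n ≤ P.ord y)
    (hxy : x + y ≠ 0) : n ≤ P.ord (x + y) := by
  obtain ⟨π, hπ⟩ := IsDiscreteValuationRing.exists_irreducible P.toValuationSubring
  have hπF : (π : F) ≠ 0 := by
    intro h0
    exact hπ.ne_zero (Subtype.ext h0)
  set w : F := (π : F) ^ (-n) with hw
  have hw0 : w ≠ 0 := zpow_ne_zero _ hπF
  have hword : P.ord w = -n := by
    rw [hw, P.ord_zpow, P.ord_coe_irreducible hπ, mul_one]
  have key : ∀ z : F, (z = 0 ∨ n ≤ P.ord z) → z * w ∈ P.toValuationSubring := by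
    intro z hz
    rcases eq_or_ne z 0 with rfl | hz0
    · rw [zero_mul]; exact zero_mem _
    · apply mem_of_ord_nonneg P
      rw [P.ord_mul hz0 hw0, hword]
      have := hz.resolve_left hz0
      omega
  have hmem : (x + y) * w ∈ P.toValuationSubring := by
    rw [add_mul]
    exact add_mem (key x hx) (key y hy)
  have := ord_nonneg_of_mem P hmem
  rw [P.ord_mul hxy hw0, hword] at this
  omega

/-- evaluation at a place of degree one. -/
theorem exists_const_of_deg_one (hdeg : P.deg = 1) {f : F} (hf : f ∈ P.toValuationSubring) :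
    ∃ c : K, f = algebraMap K F c ∨ 1 ≤ P.ord (f - algebraMap K F c) := by
  have h1 : Module.finrank K P.ResidueField = 1 := hdeg
  have hne : (1 : P.ResidueField) ≠ 0 := one_ne_zero
  obtain ⟨c, hc⟩ := (finrank_eq_one_iff_of_nonzero' (1 : P.ResidueField) hne).mp h1
    (IsLocalRing.residue P.toValuationSubring ⟨f, hf⟩)
  refine ⟨c, ?_⟩
  have hres : IsLocalRing.residue P.toValuationSubring
      (⟨f, hf⟩ - algebraMap K P.toValuationSubring c) = 0 := by
    rw [map_sub, ← hc, Algebra.smul_def, mul_one]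
    rw [IsScalarTower.algebraMap_apply K P.toValuationSubring P.ResidueField]
    simp
  by_cases h0 : f = algebraMap K F c
  · exact Or.inl h0
  · right
    set a : P.toValuationSubring := ⟨f, hf⟩ - algebraMap K P.toValuationSubring c with ha
    have ha0 : a ≠ 0 := by
      intro h
      apply h0
      have := congrArg Subtype.val h
      have h2 : f - algebraMap K F c = 0 := this
      exact sub_eq_zero.mp h2
    have hnu : ¬ IsUnit a := by
      intro hu
      have := (IsLocalRing.residue_ne_zero_iff_isUnit a).mpr hu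
      exact this hres
    exact ord_pos_of_not_isUnit P a ha0 hnu

end PlaceGeneric

section MapDomain

variable {α β : Type*} (r : α → β)

theorem md_eval' (D : α →₀ ℤ) (Q : β) (T : Finset α) (hT : D.support ⊆ T) [DecidableEq β] :
    Finsupp.mapDomain r D Q = ∑ P ∈ T, if r P = Q then D P else 0 := by
  classical
  rw [Finsupp.mapDomain, Finsupp.sum_apply, Finsupp.sum]
  rw [← Finset.sum_subset hT]
  · apply Finset.sum_congr rfl
    intro P _
    rw [Finsupp.single_apply]
  · intro P _ hP
    rw [Finsupp.notMem_support_iff.mp hP]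
    simp

theorem md_nonneg (D : α →₀ ℤ) (Q : β) (h : ∀ P, r P = Q → 0 ≤ D P) :
    0 ≤ Finsupp.mapDomain r D Q := by
  classical
  rw [md_eval' r D Q D.support subset_rfl]
  apply Finset.sum_nonneg
  intro P _
  split_ifs with hP
  · exact h P hP
  · exact le_rfl

theorem md_ge (D : α →₀ ℤ) (Q : β) (h : ∀ P, r P = Q → 0 ≤ D P) (P : α) (hP : r P = Q) :
    D P ≤ Finsupp.mapDomain r D Q := by
  classical
  rw [md_eval' r D Q (D.support ∪ {P}) Finset.subset_union_left]
  have h1 : (if r P = Q then D P else 0) ≤ ∑ P' ∈ D.support ∪ {P}, if r P' = Q then D P' else 0 := by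
    apply Finset.single_le_sum (f := fun P' => if r P' = Q then D P' else 0)
    · intro P' _
      show 0 ≤ if r P' = Q then D P' else 0
      split_ifs with hP'
      · exact h P' hP'
      · exact le_rfl
    · simp
  rwa [if_pos hP] at h1

theorem md_ge_two (D : α →₀ ℤ) (Q : β) (h : ∀ P, r P = Q → 0 ≤ D P) (P P' : α) (hP : r P = Q)
    (hP' : r P' = Q) (hne : P ≠ P') :
    D P + D P' ≤ Finsupp.mapDomain r D Q := by
  classical
  rw [md_eval' r D Q (D.support ∪ {P, P'}) Finset.subset_union_left]
  have hsub : ({P, P'} : Finset α) ⊆ D.support ∪ {P, P'} := Finset.subset_union_right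
  have h1 : ∑ x ∈ ({P, P'} : Finset α), (if r x = Q then D x else 0)
      ≤ ∑ x ∈ D.support ∪ {P, P'}, if r x = Q then D x else 0 := by
    apply Finset.sum_le_sum_of_subset_of_nonneg hsub
    intro x _ _
    split_ifs with hx
    · exact h x hx
    · exact le_rfl
  rw [Finset.sum_pair hne, if_pos hP, if_pos hP'] at h1
  exact h1

theorem md_eq_zero (D : α →₀ ℤ) (Q : β) (h : ∀ P, r P = Q → D P = 0) :
    Finsupp.mapDomain r D Q = 0 := by
  classical
  rw [md_eval' r D Q D.support subset_rfl]
  apply Finset.sum_eq_zero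
  intro P _
  split_ifs with hP
  · exact h P hP
  · rfl

theorem md_exists (D : α →₀ ℤ) (Q : β) (h : Finsupp.mapDomain r D Q ≠ 0) :
    ∃ P, r P = Q ∧ D P ≠ 0 := by
  by_contra hcon
  push Not at hcon
  exact h (md_eq_zero r D Q hcon)

/-- a nonnegative divisor whose push-forward has value one at `Q` is a single point on the
class of `Q`. -/
theorem md_unique (D : α →₀ ℤ) (Q : β) (h : ∀ P, r P = Q → 0 ≤ D P)
    (h1 : Finsupp.mapDomain r D Q = 1) :
    ∃ P, r P = Q ∧ D P = 1 ∧ ∀ P', r P' = Q → P' ≠ P → D P' = 0 := by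
  obtain ⟨P, hP, hDP⟩ := md_exists r D Q (by rw [h1]; exact one_ne_zero)
  have h0 := h P hP
  have h2 := md_ge r D Q h P hP
  rw [h1] at h2
  refine ⟨P, hP, by omega, ?_⟩
  intro P' hP' hne
  have h3 := md_ge_two r D Q h P P' hP hP' (Ne.symm hne)
  rw [h1] at h3
  have h4 := h P' hP'
  omega

/-- if the push-forward has value one, the values on the class are nonnegative and one of them
is positive, then the divisor is the indicator of that point on the class. -/
theorem md_single (D : α →₀ ℤ) (Q : β) (h : ∀ P, r P = Q → 0 ≤ D P)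
    (h1 : Finsupp.mapDomain r D Q = 1) (P : α) (hP : r P = Q) (hpos : 1 ≤ D P) :
    D P = 1 ∧ ∀ P', r P' = Q → P' ≠ P → D P' = 0 := by
  have h2 := md_ge r D Q h P hP
  rw [h1] at h2
  refine ⟨by omega, ?_⟩
  intro P' hP' hne
  have h3 := md_ge_two r D Q h P P' hP hP' (Ne.symm hne)
  rw [h1] at h3
  have h4 := h P' hP'
  omega

end MapDomain

end Fermat.Agent.S18.CORE9120
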